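import Fermat.Agent.BrunnMinkowski.Prekopa
import Mathlib.Probability.CDF
import Mathlib.Probability.Distributions.Gaussian.Multivariate

/-!
# Concentration for the standard Gaussian measure

Maurey's argument: the inequality of Prékopa and Leindler for the densities gives
`∫ exp ((F - a)₊² / 4) ≤ 1 / γ (F ≤ a)` for every function `F` which is `1`-Lipschitz for the
Euclidean length.
-/

set_option autoImplicit false

noncomputable section

namespace FA.Dvoretzky

open MeasureTheory ProbabilityTheory Real Finset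
open scoped ENNReal Matrix Topology

variable {n : ℕ}

/-- The standard Gaussian measure. -/
def gauss (n : ℕ) : Measure (Fin n → ℝ) := Measure.pi fun _ => gaussianReal 0 1

instance : IsProbabilityMeasure (gauss n) := by unfold gauss; infer_instance

/-- The Euclidean length. -/
def len (x : Fin n → ℝ) : ℝ := √(x ⬝ᵥ x)

theorem dot_self_nonneg (x : Fin n → ℝ) : 0 ≤ x ⬝ᵥ x := sum_nonneg fun i _ => mul_self_nonneg (x i)

theorem len_nonneg (x : Fin n → ℝ) : 0 ≤ len x := Real.sqrt_nonneg _

theorem len_sq (x : Fin n → ℝ) : len x ^ 2 = x ⬝ᵥ x := Real.sq_sqrt (dot_self_nonneg x)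

theorem len_neg (x : Fin n → ℝ) : len (-x) = len x := by simp [len]

theorem len_smul (c : ℝ) (x : Fin n → ℝ) : len (c • x) = |c| * len x := by
  rw [len, len, smul_dotProduct, dotProduct_smul, smul_eq_mul, smul_eq_mul, ← mul_assoc,
    Real.sqrt_mul (mul_self_nonneg c), Real.sqrt_mul_self_eq_abs]

theorem continuous_len : Continuous (len (n := n)) := by
  unfold len dotProduct
  fun_prop

/-- `F` is `1`-Lipschitz for the Euclidean length. -/
def LenLip (F : (Fin n → ℝ) → ℝ) : Prop := ∀ x y, F x - F y ≤ len (x - y)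

theorem LenLip.abs_le {F : (Fin n → ℝ) → ℝ} (hF : LenLip F) (x y : Fin n → ℝ) :
    |F x - F y| ≤ len (x - y) :=
  abs_sub_le_iff.2 ⟨hF x y, (hF y x).trans_eq (by rw [← neg_sub, len_neg])⟩

theorem LenLip.continuous {F : (Fin n → ℝ) → ℝ} (hF : LenLip F) : Continuous F :=
  continuous_iff_continuousAt.2 fun y => by
    refine tendsto_iff_norm_sub_tendsto_zero.2 (squeeze_zero (fun x => norm_nonneg _)
      (fun x => (hF.abs_le x y)) ?_)
    have h : Filter.Tendsto (fun x : Fin n → ℝ => len (x - y)) (𝓝 y) (𝓝 (len (y - y))) :=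
      (continuous_len.comp (continuous_id.sub continuous_const)).tendsto y
    rwa [sub_self, show len (0 : Fin n → ℝ) = 0 by simp [len]] at h

/-- The density. -/
def weight (x : Fin n → ℝ) : ℝ≥0∞ := ∏ i, gaussianPDF 0 1 (x i)

theorem measurable_weight : Measurable (weight (n := n)) :=
  Finset.measurable_prod _ fun i _ => (measurable_gaussianPDF 0 1).comp (measurable_pi_apply i)

theorem lintegral_pi_prod : ∀ (n : ℕ) (f : Fin n → ℝ → ℝ≥0∞), (∀ i, Measurable (f i)) →
    ∫⁻ x : Fin n → ℝ, ∏ i, f i (x i) = ∏ i, ∫⁻ t, f i t := by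
  intro n
  induction n with
  | zero =>
    intro f _
    have h1 : (volume : Measure (Fin 0 → ℝ)) Set.univ = 1 := by simp [volume_pi]
    simp [lintegral_unique, h1]
  | succ n ih =>
    intro f hf
    have hmp := (volume_preserving_piFinSuccAbove (fun _ : Fin (n + 1) => ℝ) 0).symm
    have hm : ∀ {m : ℕ} (g : Fin m → ℝ → ℝ≥0∞), (∀ i, Measurable (g i)) →
        Measurable fun x : Fin m → ℝ => ∏ i, g i (x i) := fun g hg =>
      Finset.measurable_prod _ fun i _ => (hg i).comp (measurable_pi_apply i)
    rw [← hmp.lintegral_comp (hm f hf), Fin.prod_univ_succ,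
      ← ih (fun i => f i.succ) fun i => hf i.succ]
    refine Eq.trans (lintegral_congr fun v => ?_)
      (lintegral_prod_mul (hf 0).aemeasurable
        (hm (fun i => f i.succ) fun i => hf i.succ).aemeasurable)
    simp [Fin.prod_univ_succ, MeasurableEquiv.piFinSuccAbove]

theorem gauss_eq_withDensity : gauss n = volume.withDensity weight := by
  refine Measure.pi_eq fun s hs => ?_
  have h : ∀ x : Fin n → ℝ, (Set.univ.pi s).indicator weight x =
      ∏ i, (s i).indicator (gaussianPDF 0 1) (x i) := fun x => by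
    by_cases hx : x ∈ Set.univ.pi s
    · rw [Set.indicator_of_mem hx, weight]
      exact prod_congr rfl fun i _ => (Set.indicator_of_mem (hx i (Set.mem_univ i)) _).symm
    · rw [Set.indicator_of_notMem hx]
      simp only [Set.mem_pi, Set.mem_univ, true_implies, not_forall] at hx
      obtain ⟨i, hi⟩ := hx
      exact (prod_eq_zero (mem_univ i) (Set.indicator_of_notMem hi _)).symm
  rw [withDensity_apply _ (MeasurableSet.univ_pi hs),
    ← lintegral_indicator (MeasurableSet.univ_pi hs), lintegral_congr h,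
    lintegral_pi_prod n _ fun i => (measurable_gaussianPDF 0 1).indicator (hs i)]
  exact prod_congr rfl fun i _ => by
    rw [lintegral_indicator (hs i), gaussianReal_apply 0 one_ne_zero]

theorem weight_eq (x : Fin n → ℝ) :
    weight x = ENNReal.ofReal ((√(2 * π))⁻¹ ^ n * exp (-(x ⬝ᵥ x) / 2)) := by
  rw [weight]
  simp only [gaussianPDF]
  rw [← ENNReal.ofReal_prod_of_nonneg fun i _ => gaussianPDFReal_nonneg _ _ _]
  congr 1
  simp only [gaussianPDFReal, NNReal.coe_one, mul_one, sub_zero]
  rw [prod_mul_distrib, prod_const, card_univ, Fintype.card_fin, ← exp_sum]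
  congr 2
  simp only [dotProduct, ← sum_div, sum_neg_distrib, sq]

/-- **Maurey's inequality.** -/
theorem maurey {F : (Fin n → ℝ) → ℝ} (hF : LenLip F) (a : ℝ) :
    (∫⁻ x, ENNReal.ofReal (exp (max 0 (F x - a) ^ 2 / 4)) ∂gauss n) * gauss n {x | F x ≤ a} ≤
      1 := by
  set E : (Fin n → ℝ) → ℝ≥0∞ := fun x => ENNReal.ofReal (exp (max 0 (F x - a) ^ 2 / 4))
  set A := {x : Fin n → ℝ | F x ≤ a}
  have hFm : Measurable F := hF.continuous.measurable
  have hA : MeasurableSet A := measurableSet_le hFm measurable_const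
  have hE : Measurable E :=
    ENNReal.measurable_ofReal.comp ((((measurable_const.max (hFm.sub measurable_const)).pow_const
      2).div_const 4).exp)
  have hw := measurable_weight (n := n)
  have h := BrunnMinkowski.prekopa_pi (l := 1 / 2) (by norm_num) (by norm_num) n
    (fun x => weight x * E x) (A.indicator weight) weight (hw.mul hE) (hw.indicator hA) hw
    fun x y => by
      by_cases hy : y ∈ A
      · rw [Set.indicator_of_mem hy]
        simp only [E, weight_eq]
        rw [← ENNReal.ofReal_mul (by positivity), ENNReal.ofReal_rpow_of_nonneg (by positivity)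
          (by norm_num), ENNReal.ofReal_rpow_of_nonneg (by positivity) (by norm_num),
          ← ENNReal.ofReal_mul (by positivity)]
        refine ENNReal.ofReal_le_ofReal ?_
        set c := (√(2 * π))⁻¹ ^ n
        have hc : 0 < c := by positivity
        rw [show (1 : ℝ) - 1 / 2 = 1 / 2 by norm_num, ← mul_rpow (by positivity) (by positivity),
          show c * exp (-(x ⬝ᵥ x) / 2) * exp (max 0 (F x - a) ^ 2 / 4) *
            (c * exp (-(y ⬝ᵥ y) / 2)) = c ^ 2 * exp (-(x ⬝ᵥ x) / 2 + max 0 (F x - a) ^ 2 / 4 +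
              -(y ⬝ᵥ y) / 2) by rw [exp_add, exp_add]; ring,
          mul_rpow (sq_nonneg c) (exp_pos _).le, ← sqrt_eq_rpow, sqrt_sq hc.le, ← exp_mul]
        refine mul_le_mul_of_nonneg_left (exp_le_exp.2 ?_) hc.le
        have h1 : max 0 (F x - a) ≤ len (x - y) :=
          max_le (len_nonneg _) (by linarith [hF x y, show F y ≤ a from hy])
        have h2 := pow_le_pow_left₀ (le_max_left _ _) h1 2
        rw [len_sq] at h2
        simp only [sub_dotProduct, dotProduct_sub, add_dotProduct, dotProduct_add, smul_dotProduct,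
          dotProduct_smul, smul_eq_mul, dotProduct_comm y x] at h2 ⊢
        nlinarith
      · rw [Set.indicator_of_notMem hy, ENNReal.zero_rpow_of_pos (by norm_num), mul_zero]
        exact bot_le
  have e1 : ∫⁻ x, weight x * E x = ∫⁻ x, E x ∂gauss n := by
    rw [gauss_eq_withDensity, lintegral_withDensity_eq_lintegral_mul _ hw hE]
    rfl
  have e2 : ∫⁻ x, A.indicator weight x = gauss n A := by
    rw [gauss_eq_withDensity, withDensity_apply _ hA, lintegral_indicator hA]
  have e3 : ∫⁻ x : Fin n → ℝ, weight x = 1 := by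
    rw [← setLIntegral_univ, ← withDensity_apply _ MeasurableSet.univ, ← gauss_eq_withDensity,
      measure_univ]
  rw [e1, e2, e3, show (1 : ℝ) - 1 / 2 = 1 / 2 by norm_num,
    ← ENNReal.mul_rpow_of_nonneg _ _ (by norm_num)] at h
  have h2 := ENNReal.rpow_le_rpow h (show (0 : ℝ) ≤ 2 by norm_num)
  rwa [← ENNReal.rpow_mul, ENNReal.one_rpow, show (1 / 2 : ℝ) * 2 = 1 by norm_num,
    ENNReal.rpow_one] at h2

/-- **Concentration**: two level sets at distance `t` are not both large. -/
theorem measure_mul_measure_le {F : (Fin n → ℝ) → ℝ} (hF : LenLip F) (a : ℝ) {t : ℝ} (ht : 0 ≤ t) :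
    (gauss n).real {x | F x ≤ a} * (gauss n).real {x | a + t ≤ F x} ≤ exp (-(t ^ 2 / 4)) := by
  have hFm : Measurable F := hF.continuous.measurable
  have h1 : ENNReal.ofReal (exp (t ^ 2 / 4)) * gauss n {x | a + t ≤ F x} ≤
      ∫⁻ x, ENNReal.ofReal (exp (max 0 (F x - a) ^ 2 / 4)) ∂gauss n := by
    rw [← setLIntegral_const]
    refine le_trans (setLIntegral_mono' (measurableSet_le measurable_const hFm) fun x hx => ?_)
      (setLIntegral_le_lintegral _ _)
    refine ENNReal.ofReal_le_ofReal (exp_le_exp.2 ?_)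
    gcongr
    exact le_max_of_le_right (by linarith [show a + t ≤ F x from hx])
  have h2 := (mul_le_mul_of_nonneg_right h1 bot_le).trans (maurey hF a)
  have h3 := ENNReal.toReal_mono ENNReal.one_ne_top h2
  rw [ENNReal.toReal_mul, ENNReal.toReal_mul, ENNReal.toReal_ofReal (exp_pos _).le,
    ENNReal.toReal_one, ← measureReal_def, ← measureReal_def] at h3
  rw [exp_neg, inv_eq_one_div, le_div_iff₀ (exp_pos _)]
  linarith

/-- **A median.** -/
theorem exists_median {F : (Fin n → ℝ) → ℝ} (hF : LenLip F) :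
    ∃ M, 1 / 2 ≤ (gauss n).real {x | F x ≤ M} ∧ 1 / 2 ≤ (gauss n).real {x | M ≤ F x} := by
  have hFm : Measurable F := hF.continuous.measurable
  set μ := (gauss n).map F
  have : IsProbabilityMeasure μ := Measure.isProbabilityMeasure_map hFm.aemeasurable
  have hle : ∀ t, cdf μ t = (gauss n).real {x | F x ≤ t} := fun t => by
    rw [cdf_eq_real, measureReal_def, Measure.map_apply hFm measurableSet_Iic, ← measureReal_def]
    rfl
  set S := {t | 1 / 2 ≤ cdf μ t}
  have hne : S.Nonempty := by
    obtain ⟨t, ht⟩ := ((tendsto_cdf_atTop μ).eventually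
      (eventually_ge_nhds (show (1 / 2 : ℝ) < 1 by norm_num))).exists
    exact ⟨t, ht⟩
  have hbdd : BddBelow S := by
    obtain ⟨t, ht⟩ := ((tendsto_cdf_atBot μ).eventually
      (eventually_lt_nhds (show (0 : ℝ) < 1 / 2 by norm_num))).exists
    exact ⟨t, fun u hu => le_of_not_ge fun h => by
      linarith [monotone_cdf μ h, show 1 / 2 ≤ cdf μ u from hu]⟩
  refine ⟨sInf S, ?_, ?_⟩
  · rw [← hle]
    have hr : Filter.Tendsto (cdf μ) (𝓝[>] sInf S) (𝓝 (cdf μ (sInf S))) :=
      (((cdf μ).right_continuous _).mono Set.Ioi_subset_Ici_self)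
    refine ge_of_tendsto hr (eventually_nhdsWithin_of_forall fun t ht => ?_)
    obtain ⟨u, hu, hut⟩ := exists_lt_of_csInf_lt hne ht
    exact le_trans hu (monotone_cdf μ hut.le)
  · have h : (gauss n).real {x | F x < sInf S} ≤ 1 / 2 := by
      obtain ⟨u, hu, -, hlim⟩ := exists_seq_strictMono_tendsto (sInf S)
      have e : {x | F x < sInf S} = ⋃ i, {x | F x ≤ u i} := by
        ext x
        simp only [Set.mem_ofPred_eq, Set.mem_iUnion]
        refine ⟨fun hx => ?_, fun ⟨i, hi⟩ => hi.trans_lt ?_⟩
        · obtain ⟨i, hi⟩ := (hlim.eventually (eventually_gt_nhds hx)).exists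
          exact ⟨i, hi.le⟩
        · exact (hu i.lt_succ_self).trans_le (hu.monotone.ge_of_tendsto hlim (i + 1))
      have h := tendsto_measure_iUnion_atTop (μ := gauss n)
        (s := fun i => {x | F x ≤ u i}) fun i j hij x hx => le_trans hx (hu.monotone hij)
      rw [← e] at h
      refine le_of_tendsto ((ENNReal.tendsto_toReal (measure_ne_top _ _)).comp h)
        (Filter.Eventually.of_forall fun i => ?_)
      simp only [Function.comp_apply, ← measureReal_def, ← hle]
      exact (not_le.1 (notMem_of_lt_csInf (s := S) ((hu i.lt_succ_self).trans_le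
        (hu.monotone.ge_of_tendsto hlim (i + 1))) hbdd)).le
    rw [show {x | sInf S ≤ F x} = {x | F x < sInf S}ᶜ by ext; simp,
      probReal_compl_eq_one_sub (measurableSet_lt hFm measurable_const)]
    linarith

/-- **Concentration at a median.** -/
theorem gaussian_concentration {F : (Fin n → ℝ) → ℝ} (hF : LenLip F) :
    ∃ M, 1 / 2 ≤ (gauss n).real {x | F x ≤ M} ∧ ∀ t, 0 ≤ t →
      (gauss n).real {x | M + t ≤ F x} ≤ 2 * exp (-(t ^ 2 / 4)) ∧
      (gauss n).real {x | F x ≤ M - t} ≤ 2 * exp (-(t ^ 2 / 4)) := by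
  obtain ⟨M, h1, h2⟩ := exists_median hF
  refine ⟨M, h1, fun t ht => ⟨?_, ?_⟩⟩
  · have h := measure_mul_measure_le hF M ht
    nlinarith [measureReal_nonneg (μ := gauss n) (s := {x | M + t ≤ F x})]
  · have h := measure_mul_measure_le hF (M - t) ht
    rw [sub_add_cancel] at h
    nlinarith [measureReal_nonneg (μ := gauss n) (s := {x | F x ≤ M - t})]

end FA.Dvoretzky

end
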