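import Fermat.Agent.Dvoretzky.Main
import Mathlib.Topology.Algebra.InfiniteSum.Constructions
import Mathlib.Topology.Algebra.InfiniteSum.Real

/-!
# Dvoretzky's theorem in all large dimensions, and the theorem of Dvoretzky and Rogers

An infinite-dimensional normed space has almost Euclidean subspaces of every dimension, and an
infinite-dimensional Banach space has a summable family whose norms are not summable.
-/

set_option autoImplicit false

noncomputable section

namespace FA.Dvoretzky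

open Real Finset Module

universe u

/-- **Dvoretzky's theorem**: every space of large enough dimension has a subspace of dimension
`k` within `1 + ε` of Euclidean. -/
theorem dvoretzky_finite {ε : ℝ} (hε : 0 < ε) (k : ℕ) :
    ∃ N : ℕ, ∀ (Y : Type u) [NormedAddCommGroup Y] [NormedSpace ℝ Y] [FiniteDimensional ℝ Y],
      N ≤ finrank ℝ Y → ∃ T : EuclideanSpace ℝ (Fin k) →ₗ[ℝ] Y,
        ∀ x, ‖x‖ ≤ ‖T x‖ ∧ ‖T x‖ ≤ (1 + ε) * ‖x‖ := by
  obtain ⟨c, hc, h⟩ := dvoretzky.{u} hε
  refine ⟨⌈exp (k / c)⌉₊, fun Y _ _ _ hN => h Y k ?_⟩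
  have h1 : exp (k / c) ≤ (finrank ℝ Y : ℝ) := (Nat.le_ceil _).trans (by exact_mod_cast hN)
  have h2 := log_le_log (exp_pos _) h1
  rw [log_exp, div_le_iff₀ hc] at h2
  linarith

variable {X : Type u} [NormedAddCommGroup X] [NormedSpace ℝ X]

theorem exists_submodule_finrank (hX : ¬ FiniteDimensional ℝ X) (n : ℕ) :
    ∃ W : Submodule ℝ X, FiniteDimensional ℝ W ∧ finrank ℝ W = n := by
  have hr : (n : Cardinal) ≤ Module.rank ℝ X :=
    (Cardinal.natCast_lt_aleph0 (n := n)).le.trans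
      (not_lt.1 fun h => hX (rank_lt_aleph0_iff.1 h))
  obtain ⟨s, hs, hli⟩ := le_rank_iff_exists_linearIndependent_finset.1 hr
  exact ⟨Submodule.span ℝ (s : Set X), FiniteDimensional.span_finset ℝ s,
    (finrank_span_finset_eq_card hli).trans hs⟩

/-- **Dvoretzky's theorem** in infinite dimension. -/
theorem dvoretzky_infinite (hX : ¬ FiniteDimensional ℝ X) {ε : ℝ} (hε : 0 < ε) (k : ℕ) :
    ∃ T : EuclideanSpace ℝ (Fin k) →ₗ[ℝ] X, ∀ x, ‖x‖ ≤ ‖T x‖ ∧ ‖T x‖ ≤ (1 + ε) * ‖x‖ := by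
  obtain ⟨N, hN⟩ := dvoretzky_finite.{u} hε k
  obtain ⟨W, hW, hWr⟩ := exists_submodule_finrank hX N
  obtain ⟨T, hT⟩ := hN W hWr.ge
  exact ⟨W.subtype ∘ₗ T, fun x => by simpa using hT x⟩

/-- The lemma of Dvoretzky and Rogers in infinite dimension. -/
theorem exists_rogers_map (hX : ¬ FiniteDimensional ℝ X) (m : ℕ) :
    ∃ L : (Fin m → ℝ) →ₗ[ℝ] X,
      (∀ x, ‖L x‖ ≤ len x) ∧ ∀ i, 1 / 2 ≤ ‖L (Pi.single i 1)‖ := by
  obtain ⟨W, hW, hWr⟩ := exists_submodule_finrank hX (2 * m)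
  have h := dvoretzky_rogers W
  rw [hWr, show (2 * m + 1) / 2 = m by omega] at h
  obtain ⟨L, h1, h2⟩ := h
  exact ⟨W.subtype ∘ₗ L, h1, h2⟩

/-- **The theorem of Dvoretzky and Rogers**: unconditional convergence does not imply absolute
convergence. -/
theorem dvoretzky_rogers_series [CompleteSpace X] (hX : ¬ FiniteDimensional ℝ X) :
    ∃ f : ℕ → X, Summable f ∧ ¬ Summable fun i => ‖f i‖ := by
  classical
  choose L hL hLe using fun k : ℕ => exists_rogers_map hX (4 ^ k)
  suffices h : ∃ f : (Σ k : ℕ, Fin (4 ^ k)) → X, Summable f ∧ ¬ Summable fun p => ‖f p‖ by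
    obtain ⟨f, hf, hf'⟩ := h
    have : Infinite (Σ k : ℕ, Fin (4 ^ k)) :=
      Infinite.of_injective (fun k => ⟨k, ⟨0, by positivity⟩⟩) fun a b h => congrArg Sigma.fst h
    obtain ⟨e⟩ := nonempty_equiv_of_countable (α := ℕ) (β := Σ k : ℕ, Fin (4 ^ k))
    exact ⟨f ∘ e, e.summable_iff.2 hf, fun h => hf' (e.summable_iff.1 h)⟩
  refine ⟨fun p => ((4 : ℝ) ^ p.1)⁻¹ • L p.1 (Pi.single p.2 1), ?_, fun h => ?_⟩
  · refine summable_iff_vanishing_norm.2 fun ε hε => ?_
    obtain ⟨s, hs⟩ := summable_iff_vanishing_norm.1 summable_geometric_two ε hε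
    refine ⟨s.sigma fun _ => univ, fun t ht => ?_⟩
    have e : t = (t.image Sigma.fst).sigma fun k => univ.filter fun i => ⟨k, i⟩ ∈ t := by
      ext ⟨k, i⟩
      simp only [mem_sigma, mem_image, mem_filter, mem_univ, true_and]
      exact ⟨fun h => ⟨⟨_, h, rfl⟩, h⟩, fun h => h.2⟩
    rw [e, sum_sigma]
    refine (norm_sum_le _ _).trans_lt (lt_of_le_of_lt ?_ ((le_abs_self _).trans_lt
      (hs (t.image Sigma.fst) ?_)))
    · refine sum_le_sum fun k _ => ?_
      set u := univ.filter fun i => (⟨k, i⟩ : Σ k : ℕ, Fin (4 ^ k)) ∈ t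
      dsimp only
      rw [← smul_sum, ← map_sum (L k), norm_smul]
      have hv : (∑ i ∈ u, Pi.single i (1 : ℝ) : Fin (4 ^ k) → ℝ) =
          fun j => if j ∈ u then 1 else 0 := by
        funext j
        simp [Pi.single_apply]
      have hlen : len (∑ i ∈ u, Pi.single i (1 : ℝ) : Fin (4 ^ k) → ℝ) ≤ 2 ^ k := by
        rw [len, hv, sqrt_le_left (by positivity), dotProduct]
        rw [sum_congr rfl fun j _ => show
          (if j ∈ u then (1 : ℝ) else 0) * (if j ∈ u then 1 else 0) =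
          (if j ∈ u then (1 : ℝ) else 0) by split <;> simp, sum_boole]
        refine le_trans (Nat.cast_le.2 (card_le_univ _)) ?_
        rw [Fintype.card_fin, ← pow_mul, mul_comm, pow_mul]
        norm_num
      refine (mul_le_mul_of_nonneg_left ((hL k _).trans hlen) (norm_nonneg _)).trans_eq ?_
      rw [norm_of_nonneg (by positivity), one_div, inv_pow, show (4 : ℝ) ^ k = 2 ^ k * 2 ^ k by
        rw [← mul_pow]; norm_num]
      field_simp
    · rw [disjoint_left]
      intro k hk hks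
      obtain ⟨p, hp, rfl⟩ := mem_image.1 hk
      exact disjoint_left.1 ht hp (mem_sigma.2 ⟨hks, mem_univ _⟩)
  · have h1 := h.sigma.tendsto_atTop_zero
    obtain ⟨k, hk⟩ :=
      (h1.eventually (eventually_lt_nhds (show (0 : ℝ) < 1 / 2 by norm_num))).exists
    rw [tsum_fintype] at hk
    have h2 : ∀ i : Fin (4 ^ k),
        ((4 : ℝ) ^ k)⁻¹ * (1 / 2) ≤ ‖((4 : ℝ) ^ k)⁻¹ • L k (Pi.single i 1)‖ := fun i => by
      rw [norm_smul, norm_of_nonneg (by positivity)]
      exact mul_le_mul_of_nonneg_left (hLe k i) (by positivity)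
    have h3 := (sum_le_sum (s := univ) fun i _ => h2 i).trans_lt hk
    rw [sum_const, card_univ, Fintype.card_fin, nsmul_eq_mul, Nat.cast_pow, Nat.cast_ofNat,
      ← mul_assoc, mul_inv_cancel₀ (by positivity), one_mul] at h3
    exact lt_irrefl _ h3

end FA.Dvoretzky

end
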