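import Fermat.Agent.Dvoretzky.Median
import Fermat.Agent.John.Maximal
import Mathlib.Analysis.Normed.Group.InfiniteSum
import Mathlib.MeasureTheory.Measure.Lebesgue.EqHaar

/-!
# Dvoretzky's theorem

A random Gaussian operator into a space normalised by its ellipsoid of largest volume is an almost
isometry on a Euclidean space of dimension of the order of `log n`.
-/

set_option autoImplicit false

noncomputable section

namespace FA.Dvoretzky

open MeasureTheory ProbabilityTheory Real Finset Module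
open scoped ENNReal Matrix RealInnerProductSpace

universe u

variable {m k : ℕ}

/-- The operator with rows `ω`. -/
def randomOp (ω : Fin m → Fin k → ℝ) : EuclideanSpace ℝ (Fin k) →ₗ[ℝ] (Fin m → ℝ) :=
  (Matrix.of ω).mulVecLin ∘ₗ (WithLp.linearEquiv 2 ℝ (Fin k → ℝ)).toLinearMap

theorem randomOp_apply (ω : Fin m → Fin k → ℝ) (x : EuclideanSpace ℝ (Fin k)) :
    randomOp ω x = fun i => ω i ⬝ᵥ x.ofLp := rfl

theorem map_dot {x : EuclideanSpace ℝ (Fin k)} (hx : ‖x‖ = 1) :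
    (gauss k).map (fun v => v ⬝ᵥ x.ofLp) = gaussianReal 0 1 := by
  have e : (fun v : Fin k → ℝ => v ⬝ᵥ x.ofLp) = innerSL ℝ x ∘ WithLp.toLp 2 := by
    funext v
    simp [EuclideanSpace.inner_eq_star_dotProduct]
  rw [gauss, e, ← Measure.map_map (by fun_prop) (by fun_prop), map_pi_eq_stdGaussian,
    IsGaussian.map_eq_gaussianReal, integral_strongDual_stdGaussian, variance_dual_stdGaussian,
    innerSL_apply_norm, hx, one_pow, Real.toNNReal_one]

theorem map_randomOp {x : EuclideanSpace ℝ (Fin k)} (hx : ‖x‖ = 1) :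
    (Measure.pi fun _ : Fin m => gauss k).map (fun ω => randomOp ω x) = gauss m := by
  have hm : Measurable fun v : Fin k → ℝ => v ⬝ᵥ x.ofLp := by unfold dotProduct; fun_prop
  have : IsProbabilityMeasure ((gauss k).map fun v => v ⬝ᵥ x.ofLp) :=
    Measure.isProbabilityMeasure_map hm.aemeasurable
  have h := Measure.pi_map_pi (Y := fun _ => ℝ) (μ := fun _ : Fin m => gauss k)
    (f := fun _ v => v ⬝ᵥ x.ofLp) fun _ => hm.aemeasurable
  simp only [map_dot hx] at h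
  exact h

theorem card_le_of_separated_sphere {δ : ℝ} (hδ : 0 < δ) (hδ1 : δ ≤ 1)
    (s : Finset (EuclideanSpace ℝ (Fin k))) (hs : ∀ c ∈ s, ‖c‖ = 1)
    (h : ∀ c ∈ s, ∀ d ∈ s, c ≠ d → δ ≤ ‖c - d‖) : (s.card : ℝ) ≤ (3 / δ) ^ k := by
  set μ : Measure (EuclideanSpace ℝ (Fin k)) := volume
  have hd : (s : Set (EuclideanSpace ℝ (Fin k))).Pairwise
      (Function.onFun Disjoint fun c => Metric.ball c (δ / 2)) := fun c hc d hd hcd =>
    Metric.ball_disjoint_ball (by rw [add_halves, dist_eq_norm]; exact h c hc d hd hcd)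
  have hsub : (⋃ c ∈ s, Metric.ball c (δ / 2)) ⊆ Metric.ball 0 (3 / 2) :=
    Set.iUnion₂_subset fun c hc => Metric.ball_subset_ball'
      (by rw [dist_zero_right, hs c hc]; linarith)
  have hI := measure_mono (μ := μ) hsub
  rw [measure_biUnion_finset hd fun c _ => Metric.isOpen_ball.measurableSet] at hI
  simp only [μ.addHaar_ball_of_pos _ (half_pos hδ),
    μ.addHaar_ball_of_pos _ (by norm_num : (0 : ℝ) < 3 / 2), sum_const, nsmul_eq_mul, ← mul_assoc,
    finrank_euclideanSpace_fin] at hI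
  have hJ := ENNReal.toReal_le_of_le_ofReal (by positivity) ((ENNReal.mul_le_mul_iff_left
    (Metric.measure_ball_pos _ _ zero_lt_one).ne' measure_ball_lt_top.ne).1 hI)
  rw [ENNReal.toReal_mul, ENNReal.toReal_natCast, ENNReal.toReal_ofReal (by positivity),
    ← le_div_iff₀ (by positivity), ← div_pow] at hJ
  exact hJ.trans_eq (by field_simp)

/-- A `δ`-net of the sphere with at most `(3 / δ) ^ k` points. -/
theorem exists_net (k : ℕ) {δ : ℝ} (hδ : 0 < δ) (hδ1 : δ ≤ 1) :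
    ∃ N : Finset (EuclideanSpace ℝ (Fin k)), (N.card : ℝ) ≤ (3 / δ) ^ k ∧ (∀ c ∈ N, ‖c‖ = 1) ∧
      ∀ x, ‖x‖ = 1 → ∃ c ∈ N, ‖x - c‖ ≤ δ := by
  classical
  obtain ⟨P, hP⟩ : ∃ P : ℕ → Prop, ∀ j, P j ↔ ∃ s : Finset (EuclideanSpace ℝ (Fin k)),
      s.card = j ∧ (∀ c ∈ s, ‖c‖ = 1) ∧ ∀ c ∈ s, ∀ d ∈ s, c ≠ d → δ ≤ ‖c - d‖ :=
    ⟨_, fun _ => Iff.rfl⟩
  obtain ⟨s, hcard, hs, hsep⟩ := (hP _).1 (Nat.findGreatest_spec (P := P)
    (n := ⌈(3 / δ) ^ k⌉₊) (Nat.zero_le _) ((hP 0).2 ⟨∅, by simp, by simp, by simp⟩))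
  refine ⟨s, card_le_of_separated_sphere hδ hδ1 s hs hsep, hs, fun x hx => ?_⟩
  by_contra! hfar
  have hxs : x ∉ s := fun h => absurd (hfar x h) (by simp [hδ.le])
  have hins : ∀ c ∈ insert x s, ∀ d ∈ insert x s, c ≠ d → δ ≤ ‖c - d‖ := by
    intro c hc d hd hcd
    rcases mem_insert.1 hc with hc | hc <;> rcases mem_insert.1 hd with hd | hd
    · exact absurd (hc.trans hd.symm) hcd
    · rw [hc]
      exact (hfar d hd).le
    · rw [hd, norm_sub_rev]
      exact (hfar c hc).le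
    · exact hsep c hc d hd hcd
  have hall : ∀ c ∈ insert x s, ‖c‖ = 1 := forall_mem_insert _ _ _ |>.2 ⟨hx, hs⟩
  have hle := Nat.le_findGreatest (P := P) (n := ⌈(3 / δ) ^ k⌉₊) (m := (insert x s).card)
    (by exact_mod_cast (card_le_of_separated_sphere hδ hδ1 _ hall hins).trans (Nat.le_ceil _))
    ((hP _).2 ⟨_, rfl, hall, hins⟩)
  rw [card_insert_of_notMem hxs, ← hcard] at hle
  omega

/-- An almost constant seminorm on a net is almost constant on the sphere. -/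
theorem bounds_of_net {g : Seminorm ℝ (EuclideanSpace ℝ (Fin k))} (hg : Continuous g) {δ M : ℝ}
    (hδ : 0 < δ) (hδ1 : δ < 1) {N : Finset (EuclideanSpace ℝ (Fin k))}
    (hN : ∀ x, ‖x‖ = 1 → ∃ c ∈ N, ‖x - c‖ ≤ δ)
    (hgN : ∀ c ∈ N, (1 - δ) * M ≤ g c ∧ g c ≤ (1 + δ) * M) {x : EuclideanSpace ℝ (Fin k)}
    (hx : ‖x‖ = 1) :
    (1 - 3 * δ) / (1 - δ) * M ≤ g x ∧ g x ≤ (1 + δ) / (1 - δ) * M := by
  obtain ⟨y, hy, hmax⟩ := (isCompact_sphere (0 : EuclideanSpace ℝ (Fin k)) 1).exists_isMaxOn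
    ⟨x, mem_sphere_zero_iff_norm.2 hx⟩ hg.continuousOn
  have hS : ∀ z, g z ≤ g y * ‖z‖ := fun z => by
    rcases eq_or_ne z 0 with rfl | hz
    · simp
    · have h : g (‖z‖⁻¹ • z) ≤ g y :=
        hmax (a := ‖z‖⁻¹ • z) (mem_sphere_zero_iff_norm.2 (by simp [norm_smul, hz]))
      rw [map_smul_eq_mul, norm_inv, norm_norm, inv_mul_le_iff₀ (norm_pos_iff.2 hz)] at h
      linarith
  have key : ∀ z, ‖z‖ = 1 → ∃ c ∈ N, g z ≤ g c + g y * δ ∧ g c ≤ g z + g y * δ := fun z hz => by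
    obtain ⟨c, hc, hd⟩ := hN z hz
    have h0 : g (z - c) ≤ g y * δ :=
      (hS _).trans (mul_le_mul_of_nonneg_left hd (apply_nonneg g y))
    have h1 := map_add_le_add g (z - c) c
    have h2 := map_add_le_add g (c - z) z
    rw [sub_add_cancel] at h1 h2
    rw [map_sub_rev g c z] at h2
    exact ⟨c, hc, by linarith, by linarith⟩
  obtain ⟨c, hc, hc1, -⟩ := key y (mem_sphere_zero_iff_norm.1 hy)
  obtain ⟨d, hd, hd1, hd2⟩ := key x hx
  have hy1 : g y ≤ (1 + δ) / (1 - δ) * M := by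
    rw [div_mul_eq_mul_div, le_div_iff₀ (by linarith)]
    linarith [(hgN c hc).2]
  have hy2 : g x ≤ g y := hmax (mem_sphere_zero_iff_norm.2 hx)
  refine ⟨?_, hy2.trans hy1⟩
  have h3 : (1 - 3 * δ) / (1 - δ) * M = (1 - δ) * M - (1 + δ) / (1 - δ) * M * δ := by
    have : 1 - δ ≠ 0 := (sub_pos.2 hδ1).ne'
    field_simp
    ring
  nlinarith [(hgN d hd).1, mul_le_mul_of_nonneg_right hy1 hδ.le]

theorem exists_almost_isometry {q : Seminorm ℝ (Fin m → ℝ)} (hle : ∀ x, q x ≤ len x)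
    (he : ∀ i, 1 / 2 ≤ q (Pi.single i 1)) (hm : 324 ≤ log m) {δ : ℝ} (hδ : 0 < δ)
    (hδ1 : δ < 1 / 3) (hk : 4 * (3 / δ) ^ k * exp (-(δ ^ 2 * log m / 64)) < 1) :
    ∃ T : EuclideanSpace ℝ (Fin k) →ₗ[ℝ] (Fin m → ℝ),
      ∀ x, ‖x‖ ≤ q (T x) ∧ q (T x) ≤ (1 + δ) / (1 - 3 * δ) * ‖x‖ := by
  obtain ⟨M, hM, hconc⟩ := exists_median_ge hle he hm
  obtain ⟨N, hNcard, hN1, hN⟩ := exists_net k hδ (by linarith)
  have hL : 0 < √(log m) := sqrt_pos.2 (by linarith)
  have hM0 : 0 < M := by linarith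
  have hqm : Measurable fun x => q x := (lenLip_seminorm hle).continuous.measurable
  obtain ⟨μ, hμ⟩ : ∃ μ : Measure (Fin m → Fin k → ℝ), μ = Measure.pi fun _ : Fin m => gauss k :=
    ⟨_, rfl⟩
  have : IsProbabilityMeasure μ := by rw [hμ]; infer_instance
  obtain ⟨bad, hbad⟩ : ∃ bad : EuclideanSpace ℝ (Fin k) → Set (Fin m → Fin k → ℝ), bad = fun c =>
      (fun ω => randomOp ω c) ⁻¹' ({y | M + δ * M ≤ q y} ∪ {y | q y ≤ M - δ * M}) := ⟨_, rfl⟩
  have hb : ∀ c ∈ N, μ.real (bad c) ≤ 4 * exp (-(δ ^ 2 * log m / 64)) := fun c hc => by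
    have hmeas : Measurable fun ω : Fin m → Fin k → ℝ => randomOp ω c := by
      simp only [randomOp_apply, dotProduct]
      fun_prop
    rw [hbad, ← map_measureReal_apply hmeas
      ((measurableSet_le measurable_const hqm).union (measurableSet_le hqm measurable_const)), hμ,
      map_randomOp (hN1 c hc)]
    obtain ⟨h1, h2⟩ := hconc (δ * M) (by positivity)
    refine (measureReal_union_le _ _).trans ((add_le_add h1 h2).trans ?_)
    rw [← add_mul, show (2 : ℝ) + 2 = 4 by norm_num]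
    refine mul_le_mul_of_nonneg_left (exp_le_exp.2 ?_) (by norm_num)
    have h3 := pow_le_pow_left₀ (by positivity) hM 2
    rw [div_pow, sq_sqrt (by linarith)] at h3
    nlinarith [sq_nonneg δ]
  have hU : μ.real (⋃ c ∈ N, bad c) < 1 := by
    refine lt_of_le_of_lt ((measureReal_biUnion_finset_le _ _).trans (sum_le_sum hb)) ?_
    rw [sum_const, nsmul_eq_mul]
    nlinarith [mul_le_mul_of_nonneg_right hNcard (exp_pos (-(δ ^ 2 * log m / 64))).le]
  obtain ⟨ω, hω⟩ : ∃ ω, ω ∉ ⋃ c ∈ N, bad c := by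
    by_contra! hall
    rw [Set.eq_univ_of_forall hall, probReal_univ] at hU
    exact lt_irrefl _ hU
  simp only [hbad, Set.mem_iUnion, Set.mem_preimage, Set.mem_union, Set.mem_ofPred_eq, not_exists,
    not_or, not_le] at hω
  set g := q.comp (randomOp ω)
  have hg : Continuous g :=
    (lenLip_seminorm hle).continuous.comp (randomOp ω).continuous_of_finiteDimensional
  have hgN : ∀ c ∈ N, (1 - δ) * M ≤ g c ∧ g c ≤ (1 + δ) * M := fun c hc => by
    show (1 - δ) * M ≤ q (randomOp ω c) ∧ q (randomOp ω c) ≤ (1 + δ) * M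
    constructor <;> nlinarith [hω c hc]
  obtain ⟨a, ha⟩ : ∃ a, a = (1 - 3 * δ) / (1 - δ) * M := ⟨_, rfl⟩
  have ha0 : 0 < a := by
    rw [ha]
    exact mul_pos (div_pos (by linarith) (by linarith)) hM0
  refine ⟨a⁻¹ • randomOp ω, fun x => ?_⟩
  rw [LinearMap.smul_apply, map_smul_eq_mul, norm_of_nonneg (inv_pos.2 ha0).le]
  rcases eq_or_ne x 0 with rfl | hx
  · simp
  have hxn : 0 < ‖x‖ := norm_pos_iff.2 hx
  obtain ⟨h1, h2⟩ := bounds_of_net hg hδ (by linarith) hN hgN (x := ‖x‖⁻¹ • x)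
    (by simp [norm_smul, hx])
  have e : g (‖x‖⁻¹ • x) = q (randomOp ω x) / ‖x‖ := by
    rw [map_smul_eq_mul, norm_inv, norm_norm, inv_mul_eq_div]
    rfl
  rw [e] at h1 h2
  rw [le_div_iff₀ hxn, ← ha] at h1
  rw [div_le_iff₀ hxn, show (1 + δ) / (1 - δ) * M = (1 + δ) / (1 - 3 * δ) * a by
    have : 1 - 3 * δ ≠ 0 := by linarith
    rw [ha, ← mul_assoc, div_mul_div_cancel₀ this]] at h2
  rw [inv_mul_eq_div, le_div_iff₀ ha0, div_le_iff₀ ha0]
  constructor <;> linarith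

variable (X : Type u) [NormedAddCommGroup X] [NormedSpace ℝ X]

/-- **The lemma of Dvoretzky and Rogers** in a normed space. -/
theorem dvoretzky_rogers [FiniteDimensional ℝ X] :
    ∃ L : (Fin ((finrank ℝ X + 1) / 2) → ℝ) →ₗ[ℝ] X,
      (∀ x, ‖L x‖ ≤ len x) ∧ ∀ i, 1 / 2 ≤ ‖L (Pi.single i 1)‖ := by
  have : ProperSpace X := FiniteDimensional.proper ℝ X
  set e : (Fin (finrank ℝ X) → ℝ) ≃ₗ[ℝ] X := (finBasis ℝ X).equivFun.symm
  obtain ⟨K, hK⟩ : ∃ K : Set (Fin (finrank ℝ X) → ℝ),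
      K = e.toContinuousLinearEquiv ⁻¹' Metric.closedBall 0 1 := ⟨_, rfl⟩
  have hcpt : IsCompact K := by
    rw [hK]
    exact e.toContinuousLinearEquiv.toHomeomorph.isCompact_preimage.2 (isCompact_closedBall 0 1)
  have h0 : (0 : Fin (finrank ℝ X) → ℝ) ∈ interior K := by
    refine interior_mono (hK ▸ Set.preimage_mono Metric.ball_subset_closedBall) ?_
    rw [(Metric.isOpen_ball.preimage e.toContinuousLinearEquiv.continuous).interior_eq]
    simp
  obtain ⟨c, A, hc, hin, hdet, hmax⟩ :=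
    John.exists_max_in hcpt isClosed_singleton h0 (Set.mem_singleton 0)
  rw [Set.mem_singleton_iff] at hc
  subst hc
  have hKmem : ∀ z, z ∈ K ↔ ‖e z‖ ≤ 1 := fun z => by simp [hK]
  set p : Seminorm ℝ (Fin (finrank ℝ X) → ℝ) :=
    (normSeminorm ℝ X).comp (e.toLinearMap ∘ₗ A.mulVecLin)
  have hp : ∀ x, p x = ‖e (A *ᵥ x)‖ := fun x => rfl
  have hball : ∀ y, y ⬝ᵥ y ≤ 1 → p y ≤ 1 := fun y hy => by
    have := (hKmem _).1 (hin y hy)
    rwa [zero_add, ← hp] at this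
  have hle : ∀ x, p x ≤ len x := fun x => by
    rcases (len_nonneg x).eq_or_lt with h | h
    · have hx : x = 0 := by
        have h2 := len_sq x
        rw [← h, zero_pow two_ne_zero] at h2
        exact dotProduct_self_eq_zero.1 h2.symm
      rw [hx, map_zero]
      exact len_nonneg _
    · have h1 := hball ((len x)⁻¹ • x) (le_of_eq (by
        rw [← len_sq, len_smul, abs_of_pos (inv_pos.2 h), inv_mul_cancel₀ h.ne', one_pow]))
      rw [map_smul_eq_mul, norm_of_nonneg (inv_pos.2 h).le, inv_mul_le_iff₀ h, mul_one] at h1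
      exact h1
  obtain ⟨L, hL, hLp⟩ := exists_subspace hle fun D hD => by
    have h := hmax 0 (A * D) rfl fun y hy => by
      rw [hKmem, zero_add, ← Matrix.mulVec_mulVec, ← hp]
      exact hD y (sqrt_le_one.2 hy)
    rw [Matrix.det_mul, abs_mul] at h
    exact (mul_le_iff_le_one_right (abs_pos.2 hdet)).1 h
  exact ⟨(e.toLinearMap ∘ₗ A.mulVecLin) ∘ₗ L, fun x => (hle (L x)).trans_eq (hL x), hLp⟩

/-- **Dvoretzky's theorem** with an explicit constant. -/
theorem exists_almost_euclidean [FiniteDimensional ℝ X] {ε : ℝ} (hε : 0 < ε) {k : ℕ}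
    (hk : (k : ℝ) ≤ (ε / (4 + 3 * ε)) ^ 3 / 1000 * log (finrank ℝ X)) :
    ∃ T : EuclideanSpace ℝ (Fin k) →ₗ[ℝ] X,
      ∀ x, ‖x‖ ≤ ‖T x‖ ∧ ‖T x‖ ≤ (1 + ε) * ‖x‖ := by
  rcases Nat.eq_zero_or_pos k with rfl | hk0
  · exact ⟨0, fun x => by simp [Subsingleton.elim x 0]⟩
  obtain ⟨L, hL, hLe⟩ := dvoretzky_rogers X
  set δ := ε / (4 + 3 * ε) with hδdef
  have hδ : 0 < δ := by positivity
  have hδ1 : δ < 1 / 3 := by rw [hδdef, div_lt_iff₀ (by linarith)]; linarith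
  have hk1 : (1 : ℝ) ≤ k := by exact_mod_cast hk0
  have hlog : 1000 / δ ^ 3 ≤ log (finrank ℝ X) := by
    rw [div_le_iff₀ (by positivity)]
    nlinarith
  have hbig : 1000 ≤ log (finrank ℝ X) := by
    refine le_trans ?_ hlog
    rw [le_div_iff₀ (by positivity)]
    nlinarith [pow_le_one₀ (n := 3) hδ.le (by linarith)]
  obtain ⟨n, hn⟩ : ∃ n, finrank ℝ X = n := ⟨_, rfl⟩
  rw [hn] at hk hlog hbig
  have hn0 : 0 < n := by
    rcases Nat.eq_zero_or_pos n with h | h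
    · subst h; simp at hbig; linarith
    · exact h
  obtain ⟨m, hm⟩ : ∃ m, (finrank ℝ X + 1) / 2 = m := ⟨_, rfl⟩
  have hnm : (n : ℝ) ≤ 2 * m := by exact_mod_cast (show n ≤ 2 * m by omega)
  have hm0 : (0 : ℝ) < m := by exact_mod_cast (show 0 < m by omega)
  have hlogm : log n - 1 ≤ log m := by
    have h := log_le_log (by exact_mod_cast hn0) hnm
    rw [log_mul two_ne_zero hm0.ne'] at h
    linarith [log_two_lt_d9]
  subst hm
  obtain ⟨T, hT⟩ := exists_almost_isometry (k := k) (q := (normSeminorm ℝ X).comp L) hL hLe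
    (by linarith) hδ hδ1 (by
      rw [← exp_log (show (0 : ℝ) < 4 by norm_num), ← exp_log (show 0 < 3 / δ by positivity),
        ← exp_nat_mul, ← exp_add, ← exp_add, exp_lt_one_iff]
      have h1 : (k : ℝ) * log (3 / δ) ≤ δ ^ 2 * log n * (3 / 1000) := by
        refine (mul_le_mul hk (log_le_self (by positivity)) (log_nonneg ?_)
          (le_trans (by positivity) hk)).trans_eq ?_
        · rw [le_div_iff₀ hδ]; linarith
        · field_simp
      have h2 : 1000 ≤ δ ^ 2 * log n * 1 := by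
        rw [mul_one]
        rw [div_le_iff₀ (by positivity)] at hlog
        nlinarith [mul_le_mul_of_nonneg_left hδ1.le
          (show 0 ≤ δ ^ 2 * log n by nlinarith [sq_nonneg δ])]
      have h3 : log 4 ≤ 3 := (log_le_sub_one_of_pos (by norm_num)).trans (by norm_num)
      nlinarith [mul_le_mul_of_nonneg_left hlogm (sq_nonneg δ), sq_nonneg δ,
        pow_le_one₀ (n := 2) hδ.le (by linarith)])
  refine ⟨L ∘ₗ T, fun x => ⟨(hT x).1, (hT x).2.trans_eq ?_⟩⟩
  congr 1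
  rw [hδdef]
  field_simp
  ring

omit [NormedSpace ℝ X] in
/-- **Dvoretzky's theorem.** -/
theorem dvoretzky {ε : ℝ} (hε : 0 < ε) :
    ∃ c, 0 < c ∧ ∀ (Y : Type u) [NormedAddCommGroup Y] [NormedSpace ℝ Y] [FiniteDimensional ℝ Y]
      (k : ℕ), (k : ℝ) ≤ c * log (finrank ℝ Y) →
        ∃ T : EuclideanSpace ℝ (Fin k) →ₗ[ℝ] Y,
          ∀ x, ‖x‖ ≤ ‖T x‖ ∧ ‖T x‖ ≤ (1 + ε) * ‖x‖ :=
  ⟨(ε / (4 + 3 * ε)) ^ 3 / 1000, by positivity, fun Y _ _ _ _ hk =>
    exists_almost_euclidean Y hε hk⟩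

end FA.Dvoretzky

end
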