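import Fermat.Agent.Dvoretzky.Rogers
import Mathlib.Analysis.Complex.ExponentialBounds
import Mathlib.Analysis.Real.Pi.Bounds

/-!
# A lower bound for the median

If a seminorm on `ℝ^m` is at most the Euclidean length and at least `1 / 2` at the unit vectors,
its median for the Gaussian measure is at least a multiple of `√(log m)`: it is at least as large
as the median of the largest coordinate, up to a constant.
-/

set_option autoImplicit false

noncomputable section

namespace FA.Dvoretzky

open MeasureTheory ProbabilityTheory Real Finset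
open scoped ENNReal Matrix

variable {m : ℕ}

theorem lenLip_seminorm {q : Seminorm ℝ (Fin m → ℝ)} (hle : ∀ x, q x ≤ len x) :
    LenLip fun x => q x := fun x y => by
  have h := map_add_le_add q (x - y) y
  rw [sub_add_cancel] at h
  linarith [hle (x - y)]

/-- The tail of one coordinate. -/
theorem exp_le_tail {s : ℝ} (hs : 0 ≤ s) :
    exp (-((s + 1) ^ 2 / 2 + 1)) ≤ (gaussianReal 0 1).real {t | s ≤ |t|} := by
  have h1 : ∀ t ∈ Set.Icc s (s + 1),
      ENNReal.ofReal (exp (-((s + 1) ^ 2 / 2 + 1))) ≤ gaussianPDF 0 1 t := fun t ht => by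
    refine ENNReal.ofReal_le_ofReal ?_
    simp only [gaussianPDFReal, NNReal.coe_one, mul_one, sub_zero]
    rw [neg_add, exp_add, mul_comm]
    refine mul_le_mul ?_ (exp_le_exp.2 ?_) (exp_pos _).le (by positivity)
    · rw [exp_neg]
      refine inv_anti₀ (by positivity) ?_
      rw [sqrt_le_iff]
      exact ⟨(exp_pos _).le, by nlinarith [pi_lt_d2, exp_one_gt_d9, exp_pos 1]⟩
    · rw [neg_div]
      nlinarith [ht.1, ht.2]
  have h2 := setLIntegral_mono' (μ := volume) measurableSet_Icc h1
  rw [setLIntegral_const, Real.volume_Icc, add_sub_cancel_left, ENNReal.ofReal_one, mul_one,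
    ← gaussianReal_apply 0 one_ne_zero] at h2
  exact ((ENNReal.ofReal_le_iff_le_toReal (measure_ne_top _ _)).1 h2).trans
    (measureReal_mono fun t ht => ht.1.trans (le_abs_self t))

/-- Changing the signs of all coordinates but one. -/
def flipExcept (i : Fin m) (x : Fin m → ℝ) : Fin m → ℝ := fun l => if l = i then x l else -x l

theorem measurePreserving_flipExcept (i : Fin m) :
    MeasurePreserving (flipExcept i) (gauss m) (gauss m) := by
  refine ⟨measurable_pi_lambda _ fun l => ?_, ?_⟩
  · by_cases h : l = i
    · simp only [flipExcept, h, if_true]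
      exact measurable_pi_apply i
    · simp only [flipExcept, h, if_false]
      exact (measurable_pi_apply l).neg
  · have h := Measure.pi_map_pi (X := fun _ => ℝ) (Y := fun _ => ℝ)
      (μ := fun _ : Fin m => gaussianReal 0 1)
      (f := fun l t => if l = i then t else -t) fun l => by
        by_cases h : l = i <;> simp only [h, if_true, if_false] <;> fun_prop
    refine h.trans (congrArg Measure.pi (funext fun l => ?_))
    by_cases h : l = i
    · simp only [h, if_true]
      exact Measure.map_id
    · simp only [h, if_false]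
      rw [gaussianReal_map_neg, neg_zero]

theorem abs_le_flip {q : Seminorm ℝ (Fin m → ℝ)} (he : ∀ i, 1 / 2 ≤ q (Pi.single i 1))
    (i : Fin m) (x : Fin m → ℝ) : |x i| ≤ q x + q (flipExcept i x) := by
  have e : (2 * x i) • (Pi.single i 1 : Fin m → ℝ) = x + flipExcept i x := by
    funext l
    by_cases h : l = i
    · subst h; simp [flipExcept, two_mul]
    · simp [flipExcept, h]
  have h := map_add_le_add q x (flipExcept i x)
  rw [← e, map_smul_eq_mul, norm_eq_abs, abs_mul, abs_two] at h
  nlinarith [he i, abs_nonneg (x i)]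

theorem exists_large_le {q : Seminorm ℝ (Fin m → ℝ)} (hle : ∀ x, q x ≤ len x)
    (he : ∀ i, 1 / 2 ≤ q (Pi.single i 1)) (s : ℝ) :
    (gauss m).real (⋃ i, {x | s ≤ |x i|}) ≤ 2 * (gauss m).real {x | s / 2 ≤ q x} := by
  have hm : ∀ i : Fin m, MeasurableSet {x : Fin m → ℝ | s ≤ |x i|} := fun i =>
    measurableSet_le measurable_const (measurable_pi_apply i).abs
  have hB : MeasurableSet {x : Fin m → ℝ | s / 2 ≤ q x} :=
    measurableSet_le measurable_const (lenLip_seminorm hle).continuous.measurable
  set f := fun i : Fin m => {x : Fin m → ℝ | s ≤ |x i|}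
  set B := {x : Fin m → ℝ | s / 2 ≤ q x}
  have hd : ∀ i, MeasurableSet (disjointed f i) := fun i =>
    disjointedRec (fun _ l ht => ht.diff (hm l)) (hm i)
  have hflip : ∀ i x, flipExcept i x ∈ disjointed f i ↔ x ∈ disjointed f i := fun i x => by
    rw [disjointed_eq_inter_compl]
    simp [f, flipExcept, apply_ite abs, abs_neg]
  have h1 : ∀ i, (gauss m).real (disjointed f i) ≤ 2 * (gauss m).real (disjointed f i ∩ B) := by
    intro i
    calc (gauss m).real (disjointed f i)
        ≤ (gauss m).real ((disjointed f i ∩ B) ∪ flipExcept i ⁻¹' (disjointed f i ∩ B)) := by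
          refine measureReal_mono fun x hx => ?_
          by_contra hn
          simp only [Set.mem_union, Set.mem_inter_iff, Set.mem_preimage, hflip, hx, true_and,
            not_or, B, Set.mem_ofPred_eq, not_le] at hn
          have h2 : s ≤ |x i| := disjointed_subset f i hx
          linarith [abs_le_flip he i x]
      _ ≤ _ := by
          refine (measureReal_union_le _ _).trans (le_of_eq ?_)
          rw [measureReal_def (gauss m) (_ ⁻¹' _),
            (measurePreserving_flipExcept i).measure_preimage ((hd i).inter hB).nullMeasurableSet,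
            ← measureReal_def]
          ring
  rw [← iUnion_disjointed, measureReal_iUnion_fintype (disjoint_disjointed f) hd]
  refine (sum_le_sum fun i _ => h1 i).trans ?_
  rw [← mul_sum, ← measureReal_iUnion_fintype
    (fun i j hij => (disjoint_disjointed f hij).mono Set.inter_subset_left Set.inter_subset_left)
    fun i => (hd i).inter hB]
  exact mul_le_mul_of_nonneg_left (measureReal_mono (Set.iUnion_subset fun i =>
    Set.inter_subset_right)) zero_le_two

theorem one_sub_le_union (s : ℝ) :
    1 - exp (-(m * (gaussianReal 0 1).real {t | s ≤ |t|})) ≤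
      (gauss m).real (⋃ i, {x | s ≤ |x i|}) := by
  have hm : MeasurableSet {t : ℝ | s ≤ |t|} := measurableSet_le measurable_const measurable_id.abs
  have e : (⋃ i : Fin m, {x : Fin m → ℝ | s ≤ |x i|})ᶜ = Set.univ.pi fun _ => {t | s ≤ |t|}ᶜ := by
    ext x
    simp
  have hU : MeasurableSet (⋃ i : Fin m, {x : Fin m → ℝ | s ≤ |x i|}) :=
    MeasurableSet.iUnion fun i => measurableSet_le measurable_const (measurable_pi_apply i).abs
  have h := probReal_compl_eq_one_sub (μ := gauss m) hU
  rw [e, measureReal_def, gauss, Measure.pi_pi, prod_const, card_univ, Fintype.card_fin,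
    ENNReal.toReal_pow, ← measureReal_def, probReal_compl_eq_one_sub hm, ← gauss] at h
  set P := (gaussianReal 0 1).real {t | s ≤ |t|}
  have h2 : (1 - P) ^ m ≤ exp (-(m * P)) := by
    rw [← mul_neg, exp_nat_mul]
    exact pow_le_pow_left₀ (sub_nonneg.2 measureReal_le_one) (one_sub_le_exp_neg P) m
  linarith

/-- **The median is large.** -/
theorem exists_median_ge {q : Seminorm ℝ (Fin m → ℝ)} (hle : ∀ x, q x ≤ len x)
    (he : ∀ i, 1 / 2 ≤ q (Pi.single i 1)) (hm : 324 ≤ log m) :
    ∃ M, √(log m) / 4 ≤ M ∧ ∀ t, 0 ≤ t →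
      (gauss m).real {x | M + t ≤ q x} ≤ 2 * exp (-(t ^ 2 / 4)) ∧
      (gauss m).real {x | q x ≤ M - t} ≤ 2 * exp (-(t ^ 2 / 4)) := by
  obtain ⟨M, -, hM⟩ := gaussian_concentration (lenLip_seminorm hle)
  refine ⟨M, ?_, hM⟩
  by_contra! hlt
  have h18 : 18 ≤ √(log m) := le_sqrt_of_sq_le (by norm_num; linarith)
  set L := √(log m)
  have hsq : L ^ 2 = log m := sq_sqrt (by linarith)
  have hmpos : (0 : ℝ) < m := by
    rcases Nat.eq_zero_or_pos m with rfl | h
    · simp at hm; linarith
    · exact_mod_cast h
  have hP : 1 ≤ (m : ℝ) * (gaussianReal 0 1).real {t | L - 1 ≤ |t|} := by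
    refine le_trans ?_ (mul_le_mul_of_nonneg_left (exp_le_tail (by linarith)) hmpos.le)
    conv_rhs => rw [← exp_log hmpos, ← exp_add]
    rw [one_le_exp_iff, sub_add_cancel, hsq]
    linarith
  have h1 := (one_sub_le_union (m := m) (L - 1)).trans (exists_large_le hle he (L - 1))
  have h2 : (gauss m).real {x | (L - 1) / 2 ≤ q x} ≤ 2 * exp (-4) := by
    refine (measureReal_mono fun x hx => ?_).trans
      (((hM 4 (by norm_num)).1).trans_eq (by norm_num))
    show M + 4 ≤ q x
    linarith [show (L - 1) / 2 ≤ q x from hx]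
  have h3 : exp (-((m : ℝ) * (gaussianReal 0 1).real {t | L - 1 ≤ |t|})) ≤ 1 / 2 := by
    refine (exp_le_exp.2 (neg_le_neg hP)).trans ?_
    rw [exp_neg, one_div]
    exact inv_anti₀ two_pos (by linarith [add_one_le_exp (1 : ℝ)])
  have h4 : exp (-4 : ℝ) ≤ 1 / 13 := by
    rw [exp_neg, one_div]
    exact inv_anti₀ (by norm_num) (by linarith [quadratic_le_exp_of_nonneg (zero_le_four (α := ℝ))])
  linarith

end FA.Dvoretzky

end
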