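import Fermat.Agent.Dvoretzky.Concentration
import Mathlib.LinearAlgebra.Matrix.SchurComplement

/-!
# The lemma of Dvoretzky and Rogers

If the Euclidean ball is the ellipsoid of largest volume in the unit ball of a seminorm `p`, then
there are `⌈n / 2⌉` orthonormal vectors at which `p` is at least `1 / 2`.
-/

set_option autoImplicit false

noncomputable section

namespace FA.Dvoretzky

open Real Finset
open scoped Matrix

variable {n : ℕ}

theorem exists_far {p : Seminorm ℝ (Fin n → ℝ)} (hle : ∀ x, p x ≤ len x)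
    (hmax : ∀ D : Matrix (Fin n) (Fin n) ℝ, (∀ y, len y ≤ 1 → p (D *ᵥ y) ≤ 1) → |D.det| ≤ 1)
    {j : ℕ} (hj : 2 * j < n) {W : Fin j → Fin n → ℝ}
    (hW : ∀ i l, W i ⬝ᵥ W l = if i = l then 1 else 0) :
    ∃ x, len x = 1 ∧ (∀ i, W i ⬝ᵥ x = 0) ∧ 1 / 2 ≤ p x := by
  by_contra! h
  have h' : ∀ x, (∀ i, W i ⬝ᵥ x = 0) → p x ≤ len x / 2 := fun x hx => by
    rcases (len_nonneg x).eq_or_lt with h0 | h0
    · linarith [hle x]
    · have h1 := h ((len x)⁻¹ • x)
        (by rw [len_smul, abs_of_pos (inv_pos.2 h0), inv_mul_cancel₀ h0.ne'])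
        fun i => by rw [dotProduct_smul, hx i, smul_zero]
      rw [map_smul_eq_mul, norm_of_nonneg (inv_pos.2 h0).le, inv_mul_eq_div, div_lt_iff₀ h0] at h1
      linarith
  obtain ⟨V, hV⟩ : ∃ V : Matrix (Fin j) (Fin n) ℝ, V = Matrix.of W := ⟨_, rfl⟩
  have hVV : V * Vᵀ = 1 := by
    ext i l
    rw [Matrix.one_apply, ← hW i l, hV]
    rfl
  set a := √(1 / 2 : ℝ) with ha
  set b := √(2 : ℝ) with hb
  have ha2 : a ^ 2 = 1 / 2 := sq_sqrt (by norm_num)
  have hb2 : b ^ 2 = 2 := sq_sqrt (by norm_num)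
  have hb0 : 0 < b := sqrt_pos.2 (by norm_num)
  have hab : a * b = 1 := by rw [ha, hb, ← sqrt_mul (by norm_num)]; norm_num
  obtain ⟨D, hD⟩ : ∃ D : Matrix (Fin n) (Fin n) ℝ, D = b • (1 + ((a - b) / b) • (Vᵀ * V)) :=
    ⟨_, rfl⟩
  have hle1 : |D.det| ≤ 1 := hmax D fun y hy => by
    set u := Vᵀ *ᵥ (V *ᵥ y) with hu
    have hz : V *ᵥ (y - u) = 0 := by
      rw [Matrix.mulVec_sub, hu, Matrix.mulVec_mulVec _ V Vᵀ, hVV, Matrix.one_mulVec, sub_self]
    have hperp : u ⬝ᵥ (y - u) = 0 := by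
      rw [hu, Matrix.mulVec_transpose, ← Matrix.dotProduct_mulVec, ← Matrix.mulVec_transpose,
        ← hu, hz, dotProduct_zero]
    have hDy : D *ᵥ y = a • u + b • (y - u) := by
      rw [hD, Matrix.smul_mulVec, Matrix.add_mulVec, Matrix.one_mulVec, Matrix.smul_mulVec,
        ← Matrix.mulVec_mulVec, ← hu]
      funext i
      simp only [Pi.add_apply, Pi.smul_apply, Pi.sub_apply, smul_eq_mul]
      field_simp
      ring
    have hp : p (D *ᵥ y) ≤ a * len u + b * (len (y - u) / 2) := by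
      rw [hDy]
      refine (map_add_le_add _ _ _).trans ?_
      rw [map_smul_eq_mul, map_smul_eq_mul, norm_of_nonneg (sqrt_nonneg _),
        norm_of_nonneg (sqrt_nonneg _)]
      refine add_le_add (mul_le_mul_of_nonneg_left (hle u) (sqrt_nonneg _))
        (mul_le_mul_of_nonneg_left (h' _ fun i => ?_) hb0.le)
      have := congrFun hz i
      rw [hV] at this
      exact this
    have hsq : len u ^ 2 + len (y - u) ^ 2 = len y ^ 2 := by
      rw [len_sq, len_sq, len_sq]
      conv_rhs => rw [show y = u + (y - u) by abel]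
      rw [add_dotProduct, dotProduct_add, dotProduct_add, dotProduct_comm (y - u) u, hperp]
      ring
    refine hp.trans ?_
    refine (abs_le.1 ((sq_le_one_iff_abs_le_one _).1 ?_)).2
    nlinarith [sq_nonneg (b / 2 * len u - a * len (y - u)), len_nonneg y]
  have hdet : D.det = b ^ n * (a / b) ^ j := by
    rw [hD, Matrix.det_smul, ← Matrix.smul_mul, Matrix.det_one_add_mul_comm, Matrix.mul_smul, hVV,
      show (1 : Matrix (Fin j) (Fin j) ℝ) + ((a - b) / b) • 1 = (a / b) • 1 by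
        rw [sub_div, div_self hb0.ne', sub_smul, one_smul]; abel,
      Matrix.det_smul, Matrix.det_one, mul_one, Fintype.card_fin, Fintype.card_fin]
  obtain ⟨d, rfl⟩ : ∃ d, n = 2 * j + (d + 1) := ⟨n - 2 * j - 1, by omega⟩
  rw [hdet, pow_add, pow_mul, mul_right_comm, ← mul_pow, show b ^ 2 * (a / b) = a * b by field_simp,
    hab, one_pow, one_mul, abs_of_pos (pow_pos hb0 _)] at hle1
  exact absurd hle1 (not_le.2
    (one_lt_pow₀ (by rw [hb, lt_sqrt zero_le_one]; norm_num) d.succ_ne_zero))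

theorem exists_orthonormal {p : Seminorm ℝ (Fin n → ℝ)} (hle : ∀ x, p x ≤ len x)
    (hmax : ∀ D : Matrix (Fin n) (Fin n) ℝ, (∀ y, len y ≤ 1 → p (D *ᵥ y) ≤ 1) → |D.det| ≤ 1) :
    ∀ {j : ℕ}, 2 * j ≤ n + 1 → ∃ W : Fin j → Fin n → ℝ,
      (∀ i l, W i ⬝ᵥ W l = if i = l then 1 else 0) ∧ ∀ i, 1 / 2 ≤ p (W i) := by
  intro j
  induction j with
  | zero => exact fun _ => ⟨fun i => i.elim0, fun i => i.elim0, fun i => i.elim0⟩
  | succ j ih =>
    intro hj
    obtain ⟨W, hW, hWp⟩ := ih (by omega)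
    obtain ⟨x, hx1, hx, hxp⟩ := exists_far hle hmax (j := j) (by omega) hW
    refine ⟨Fin.snoc W x, fun i l => ?_, fun i => ?_⟩
    · induction i using Fin.lastCases with
      | last =>
        induction l using Fin.lastCases with
        | last => simp [← len_sq, hx1]
        | cast l => simp [dotProduct_comm x, hx l, (Fin.castSucc_ne_last l).symm]
      | cast i =>
        induction l using Fin.lastCases with
        | last => simp [hx i, Fin.castSucc_ne_last i]
        | cast l => simp [hW i l]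
    · induction i using Fin.lastCases with
      | last => simpa using hxp
      | cast i => simpa using hWp i

/-- **The lemma of Dvoretzky and Rogers.** -/
theorem exists_subspace {p : Seminorm ℝ (Fin n → ℝ)} (hle : ∀ x, p x ≤ len x)
    (hmax : ∀ D : Matrix (Fin n) (Fin n) ℝ, (∀ y, len y ≤ 1 → p (D *ᵥ y) ≤ 1) → |D.det| ≤ 1) :
    ∃ L : (Fin ((n + 1) / 2) → ℝ) →ₗ[ℝ] (Fin n → ℝ),
      (∀ x, len (L x) = len x) ∧ ∀ i, 1 / 2 ≤ p (L (Pi.single i 1)) := by
  obtain ⟨W, hW, hWp⟩ := exists_orthonormal hle hmax (j := (n + 1) / 2) (by omega)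
  refine ⟨Fintype.linearCombination ℝ W, fun x => ?_, fun i => ?_⟩
  · rw [len, len, Fintype.linearCombination_apply, sum_dotProduct]
    congr 1
    refine sum_congr rfl fun i _ => ?_
    simp [dotProduct_sum, hW, mul_ite]
  · rw [Fintype.linearCombination_apply_single, one_smul]
    exact hWp i

end FA.Dvoretzky

end
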